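/-
Programme T1 (geometry at `p`; cell T1b, rows S40/S33), brick (B-H90) (helper37).

Local model of B5: `K̄ = PadicAlgCl p`, `G_p = Gal(K̄/ℚ_p)`, inertia = `IsInertial`.

**Hilbert 90 on one-units, inertial form.**  For `y ∈ K̄ˣ` the function `τ ↦ τ y / y` on the inertia group is
the coboundary of a ONE-UNIT `ω` (`‖ω - 1‖ < 1`) if and only if the norm of `y` lies in the value group
`p^ℤ` of the maximal unramified extension.  With `y ^ p = x ∈ ℚ_p^{nr}` this is the statement
"the Kummer class of `x` dies in `H¹(I, 1 + 𝔪)` iff `p ∣ v(x)`" (peu ramifié).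

Everything is derived from the landed B5 toolkit (`LDAll65.toolkit`, `LDAll65.existsUnramSub`).
-/
import Mathlib
import Fermat.Agent.TW.B5.LDAll65

set_option autoImplicit false

namespace Fermat.Agent.T1.Peu37.H90

open Fermat.Agent.TW.B5.Iface Fermat.Agent.TW.B5.IfaceLG Fermat.Agent.TW.B5.IfaceCT

variable (p : ℕ) [Fact p.Prime]

/-- An element fixed by all of inertia has norm in `p^ℤ`. -/
theorem norm_of_inertia_fixed {x : Kbar p} (hx : x ≠ 0)
    (hfix : ∀ τ : Gp p, IsInertial p τ → τ x = x) : ∃ n : ℤ, ‖x‖ = (p : ℝ) ^ n := by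
  obtain ⟨K₁, _, hur, hxK⟩ := (Fermat.Agent.TW.B5.LDAll65.toolkit p).inertiaFixedUnram x hfix
  exact hur x hxK hx

/-- Every element of the closed unit ball is congruent, modulo the maximal ideal, to an element fixed by
all of inertia (a "Teichmüller lift"). -/
theorem exists_inertia_fixed_approx (x : Kbar p) (hx : ‖x‖ ≤ 1) :
    ∃ a : Kbar p, (∀ τ : Gp p, IsInertial p τ → τ a = a) ∧ ‖x - a‖ < 1 := by
  classical
  let F : IntermediateField ℚ_[p] (Kbar p) := IntermediateField.adjoin ℚ_[p] {x}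
  have hxint : IsIntegral ℚ_[p] x := (Algebra.IsAlgebraic.isAlgebraic (R := ℚ_[p]) x).isIntegral
  have hFfin : FiniteDimensional ℚ_[p] F := IntermediateField.adjoin.finiteDimensional hxint
  obtain ⟨K₀, _, hK₀fin, hK₀ur, hres⟩ := Fermat.Agent.TW.B5.LDAll65.existsUnramSub p F hFfin
  obtain ⟨y, hyK, hxy⟩ := hres x (IntermediateField.mem_adjoin_simple_self ℚ_[p] x) hx
  refine ⟨y, fun τ hτ => ?_, hxy⟩
  exact (Fermat.Agent.TW.B5.LDAll65.toolkit p).unramFixedByInertia K₀ hK₀fin hK₀ur τ hτ y hyK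

/-- **(B-H90).**  `τ ↦ τ y / y` is, on inertia, the coboundary of a one-unit iff `‖y‖ ∈ p^ℤ`. -/
theorem exists_oneUnit_coboundary_iff (y : Kbar p) (hy : y ≠ 0) :
    (∃ ω : Kbar p, ‖ω - 1‖ < 1 ∧ ∀ τ : Gp p, IsInertial p τ → τ ω / ω = τ y / y) ↔
      ∃ n : ℤ, ‖y‖ = (p : ℝ) ^ n := by
  have hp0 : (p : Kbar p) ≠ 0 := by
    exact_mod_cast (Fact.out : p.Prime).ne_zero
  constructor
  · rintro ⟨ω, hω, hcob⟩
    have hω1 : ‖ω‖ = 1 := by
      have hne : ‖ω - 1‖ ≠ ‖(1 : Kbar p)‖ := by rw [norm_one]; exact hω.ne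
      have h1 := IsUltrametricDist.norm_add_eq_max_of_norm_ne_norm hne
      rw [sub_add_cancel, norm_one, max_eq_right hω.le] at h1
      exact h1
    have hω0 : ω ≠ 0 := by
      intro h
      rw [h, norm_zero] at hω1
      exact zero_ne_one hω1
    have hfix : ∀ τ : Gp p, IsInertial p τ → τ (y / ω) = y / ω := by
      intro τ hτ
      have h := hcob τ hτ
      have hτω : τ ω ≠ 0 := by
        intro h0
        exact hω0 ((map_eq_zero_iff τ τ.injective).1 h0)
      rw [map_div₀]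
      rw [div_eq_div_iff hω0 hy] at h
      rw [div_eq_div_iff hτω hω0]
      linear_combination -h
    obtain ⟨n, hn⟩ := norm_of_inertia_fixed p (div_ne_zero hy hω0) hfix
    refine ⟨n, ?_⟩
    rw [← hn, norm_div, hω1, div_one]
  · rintro ⟨n, hn⟩
    -- `y' = y / p ^ n` is a unit
    set c : Kbar p := (p : Kbar p) ^ n with hc
    have hc0 : c ≠ 0 := zpow_ne_zero _ hp0
    have hcn : ‖c‖ = ((p : ℝ) ^ n)⁻¹ := by
      rw [hc, norm_zpow]
      have : ‖(p : Kbar p)‖ = (p : ℝ)⁻¹ := by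
        have h1 : ((p : ℚ_[p]) : Kbar p) = (p : Kbar p) :=
          map_natCast (algebraMap ℚ_[p] (Kbar p)) p
        rw [← h1, PadicAlgCl.norm_extends, Padic.norm_p]
      rw [this, inv_zpow]
    have hpn0 : ((p : ℝ) ^ n) ≠ 0 := by
      apply zpow_ne_zero
      exact_mod_cast (Fact.out : p.Prime).ne_zero
    set y' : Kbar p := y * c with hy'
    have hy'1 : ‖y'‖ = 1 := by
      rw [hy', norm_mul, hn, hcn, mul_inv_cancel₀ hpn0]
    obtain ⟨a, hafix, hya⟩ := exists_inertia_fixed_approx p y' hy'1.le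
    have ha1 : ‖a‖ = 1 := by
      have h1 : ‖a - y'‖ < ‖y'‖ := by rw [hy'1, norm_sub_rev]; exact hya
      have h2 := IsUltrametricDist.norm_add_eq_max_of_norm_ne_norm h1.ne
      rw [sub_add_cancel, max_eq_right h1.le, hy'1] at h2
      exact h2
    have ha0 : a ≠ 0 := by
      intro h
      rw [h, norm_zero] at ha1
      exact zero_ne_one ha1
    have hcfix : ∀ τ : Gp p, τ c = c := by
      intro τ
      rw [hc, map_zpow₀, map_natCast]
    refine ⟨y' / a, ?_, fun τ hτ => ?_⟩
    · have : y' / a - 1 = (y' - a) / a := by field_simp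
      rw [this, norm_div, ha1, div_one]
      exact hya
    · have hτy : τ y ≠ 0 := by
        intro h0
        exact hy ((map_eq_zero_iff τ τ.injective).1 h0)
      rw [map_div₀, hafix τ hτ, hy', map_mul, hcfix τ]
      field_simp

end Fermat.Agent.T1.Peu37.H90
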