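/-
Programme T1 (geometry at `p`; cell T1b, rows S40/S33), brick (NCG) (helper37).

**The class group of a node, elementary form.**  `A` = the local ring of a normal two-dimensional model at a
point where two components of the reduced special fibre cross; `v₁ v₂` = the two vertical valuations
(normalised by `v_j π = 1`), `x y = π ^ K · unit` the node normal form (`K` = thickness in units of `v(π)`),
`𝔪 = (π, x, y)`, `v₁ x = 0 = v₂ y`.

THEOREM (`dvd_sub`).  If `h ∈ A` divides a power of `π` (its divisor near the node is vertical) then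
`K ∣ v₂ h - v₁ h`.

Consequence (THICK): for a function `h` of the function field whose divisor avoids the annulus of the node and
whose two Gauss valuations differ by `δ`, the thickness divides `δ`.  With `h = G(pz)/G(z)`, `G` a modular form
of weight `k` without zeros on the upper half plane, `δ = k · v(p)`; `G = Δ` gives `k_e ∣ 12`, the eta quotient
`θ⁴` gives `k_e ∣ 2`.

Proof: `h ^ K x ^ a y ^ b` has valuations `(K(a+b), K(a+b))`, so by saturation `h ^ K = x ^ b y ^ a · unit`;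
after stripping powers of `π`, `min a b = 0`, say `a = 0`, and modulo `P₁ = {v₁ ≥ 1}` the ring `A / P₁` is a
discrete valuation ring with uniformiser `x̄`, whence `K · ord h̄ = b`.
-/
import Mathlib

set_option autoImplicit false
set_option linter.unusedSectionVars false
set_option linter.style.haveILetI false

namespace Fermat.Agent.T1.Peu37.NodeClassGroup

open IsLocalRing

/-- The data of a node of thickness `K` (in units of the uniformiser `π`) in a local ring `A`. -/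
structure NodeData (A : Type*) [CommRing A] [IsLocalRing A] (v₁ v₂ : A → ℕ) (P₁ P₂ : Ideal A)
    (π x y : A) (K : ℕ) : Prop where
  v₁_mul : ∀ f g : A, f ≠ 0 → g ≠ 0 → v₁ (f * g) = v₁ f + v₁ g
  v₂_mul : ∀ f g : A, f ≠ 0 → g ≠ 0 → v₂ (f * g) = v₂ f + v₂ g
  v₁_pi : v₁ π = 1
  v₂_pi : v₂ π = 1
  v₁_x : v₁ x = 0
  v₂_y : v₂ y = 0
  pi_ne : π ≠ 0
  rel : ∃ ε : A, IsUnit ε ∧ x * y = π ^ K * ε
  sat : ∀ f : A, f ≠ 0 → 1 ≤ v₁ f → 1 ≤ v₂ f → π ∣ f
  mem_P₁ : ∀ f : A, f ≠ 0 → (f ∈ P₁ ↔ 1 ≤ v₁ f)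
  mem_P₂ : ∀ f : A, f ≠ 0 → (f ∈ P₂ ↔ 1 ≤ v₂ f)
  prime₁ : P₁.IsPrime
  prime₂ : P₂.IsPrime
  max_eq : maximalIdeal A = Ideal.span {π, x, y}
  K_pos : 0 < K

variable {A : Type*} [CommRing A] [IsDomain A] [IsLocalRing A]
variable {v₁ v₂ : A → ℕ} {P₁ P₂ : Ideal A} {π x y : A} {K : ℕ}

namespace NodeData

/-- The symmetric datum (exchange of the two branches). -/
theorem symm (D : NodeData A v₁ v₂ P₁ P₂ π x y K) : NodeData A v₂ v₁ P₂ P₁ π y x K where
  v₁_mul := D.v₂_mul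
  v₂_mul := D.v₁_mul
  v₁_pi := D.v₂_pi
  v₂_pi := D.v₁_pi
  v₁_x := D.v₂_y
  v₂_y := D.v₁_x
  pi_ne := D.pi_ne
  rel := by
    obtain ⟨ε, hε, h⟩ := D.rel
    exact ⟨ε, hε, by rw [mul_comm, h]⟩
  sat := fun f hf h1 h2 => D.sat f hf h2 h1
  mem_P₁ := D.mem_P₂
  mem_P₂ := D.mem_P₁
  prime₁ := D.prime₂
  prime₂ := D.prime₁
  max_eq := by
    rw [D.max_eq]
    congr 1
    ext z
    simp only [Set.mem_insert_iff, Set.mem_singleton_iff]
    tauto
  K_pos := D.K_pos

section Basic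

variable (D : NodeData A v₁ v₂ P₁ P₂ π x y K)
include D

theorem v₁_one : v₁ (1 : A) = 0 := by
  have h := D.v₁_mul 1 1 one_ne_zero one_ne_zero
  rw [mul_one] at h
  omega

theorem v₁_unit {u : A} (hu : IsUnit u) : v₁ u = 0 := by
  obtain ⟨w, hw⟩ := hu.exists_right_inv
  have hu0 : u ≠ 0 := hu.ne_zero
  have hw0 : w ≠ 0 := by
    rintro rfl
    rw [mul_zero] at hw
    exact zero_ne_one hw
  have h := D.v₁_mul u w hu0 hw0
  rw [hw, D.v₁_one] at h
  omega

theorem v₁_pow {f : A} (hf : f ≠ 0) (n : ℕ) : v₁ (f ^ n) = n * v₁ f := by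
  induction n with
  | zero => rw [pow_zero, D.v₁_one, zero_mul]
  | succ n ih =>
    rw [pow_succ, D.v₁_mul _ _ (pow_ne_zero n hf) hf, ih]
    ring

theorem x_ne : x ≠ 0 := by
  rintro rfl
  obtain ⟨ε, hε, h⟩ := D.rel
  rw [zero_mul] at h
  exact mul_ne_zero (pow_ne_zero K D.pi_ne) hε.ne_zero h.symm

theorem y_ne : y ≠ 0 := by
  rintro rfl
  obtain ⟨ε, hε, h⟩ := D.rel
  rw [mul_zero] at h
  exact mul_ne_zero (pow_ne_zero K D.pi_ne) hε.ne_zero h.symm

theorem v₁_y : v₁ y = K := by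
  obtain ⟨ε, hε, h⟩ := D.rel
  have h1 := D.v₁_mul x y D.x_ne D.y_ne
  have h2 := D.v₁_mul (π ^ K) ε (pow_ne_zero K D.pi_ne) hε.ne_zero
  rw [h, h2, D.v₁_pow D.pi_ne, D.v₁_pi, D.v₁_unit hε, D.v₁_x] at h1
  omega

/-- Iterated saturation. -/
theorem pow_dvd_of_le (n : ℕ) : ∀ f : A, f ≠ 0 → n ≤ v₁ f → n ≤ v₂ f → π ^ n ∣ f := by
  induction n with
  | zero => intro f _ _ _; rw [pow_zero]; exact one_dvd f
  | succ n ih =>
    intro f hf h1 h2
    obtain ⟨g, rfl⟩ := D.sat f hf (by omega) (by omega)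
    have hg : g ≠ 0 := right_ne_zero_of_mul hf
    have e1 := D.v₁_mul π g D.pi_ne hg
    have e2 := D.v₂_mul π g D.pi_ne hg
    rw [D.v₁_pi] at e1
    rw [D.v₂_pi] at e2
    obtain ⟨w, rfl⟩ := ih g hg (by omega) (by omega)
    exact ⟨w, by ring⟩

end Basic

/-- An element with both valuations `0` dividing a power of `π` is a unit. -/
theorem isUnit_of_dvd_pow (D : NodeData A v₁ v₂ P₁ P₂ π x y K) {u : A} (h1 : v₁ u = 0) (h2 : v₂ u = 0)
    {n : ℕ} (hdvd : u ∣ π ^ n) : IsUnit u := by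
  obtain ⟨w, hw⟩ := hdvd
  have hpn : π ^ n ≠ 0 := pow_ne_zero n D.pi_ne
  have hu0 : u ≠ 0 := by
    rintro rfl
    rw [zero_mul] at hw
    exact hpn hw
  have hw0 : w ≠ 0 := by
    rintro rfl
    rw [mul_zero] at hw
    exact hpn hw
  have e1 := D.v₁_mul u w hu0 hw0
  have e2 := D.symm.v₁_mul u w hu0 hw0
  rw [← hw, D.v₁_pow D.pi_ne, D.v₁_pi] at e1
  rw [← hw, D.symm.v₁_pow D.pi_ne, D.symm.v₁_pi] at e2
  obtain ⟨w', rfl⟩ := D.pow_dvd_of_le n w hw0 (by omega) (by omega)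
  have h3 : π ^ n * 1 = π ^ n * (u * w') := by
    calc π ^ n * 1 = π ^ n := mul_one _
      _ = u * (π ^ n * w') := hw
      _ = π ^ n * (u * w') := by ring
  exact IsUnit.of_mul_eq_one w' (mul_left_cancel₀ hpn h3).symm

variable [IsNoetherianRing A]

/-- **Key case** `v₁ h = 0`: then `K ∣ v₂ h`. -/
theorem dvd_of_v₁_eq_zero (D : NodeData A v₁ v₂ P₁ P₂ π x y K) {h g : A} {n : ℕ}
    (hg : h * g = π ^ n) (h1 : v₁ h = 0) : K ∣ v₂ h := by
  classical
  have hpn : π ^ n ≠ 0 := pow_ne_zero n D.pi_ne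
  have hh0 : h ≠ 0 := by
    rintro rfl
    rw [zero_mul] at hg
    exact hpn hg.symm
  have hg0 : g ≠ 0 := by
    rintro rfl
    rw [mul_zero] at hg
    exact hpn hg.symm
  set b := v₂ h with hb
  obtain ⟨ε, hε, hrel⟩ := D.rel
  obtain ⟨ε', hεε'⟩ := hε.exists_right_inv
  have hε'u : IsUnit ε' := IsUnit.of_mul_eq_one ε (by rw [mul_comm]; exact hεε')
  -- `π ^ K = x y ε'`
  have hpiK : π ^ K = x * y * ε' := by rw [hrel, mul_assoc, hεε', mul_one]
  have hx0 := D.x_ne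
  have hy0 := D.y_ne
  have hhK0 : h ^ K ≠ 0 := pow_ne_zero K hh0
  have hyb0 : y ^ b ≠ 0 := pow_ne_zero b hy0
  -- valuations of `h ^ K * y ^ b`
  have e1 : v₁ (h ^ K * y ^ b) = K * b := by
    rw [D.v₁_mul _ _ hhK0 hyb0, D.v₁_pow hh0, D.v₁_pow hy0, h1, D.v₁_y]
    ring
  have e2 : v₂ (h ^ K * y ^ b) = K * b := by
    rw [D.symm.v₁_mul _ _ hhK0 hyb0, D.symm.v₁_pow hh0, D.symm.v₁_pow hy0, D.v₂_y, ← hb]
    ring
  obtain ⟨w, hw⟩ := D.pow_dvd_of_le (K * b) (h ^ K * y ^ b) (mul_ne_zero hhK0 hyb0) e1.ge e2.ge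
  have hw0 : w ≠ 0 := by
    rintro rfl
    rw [mul_zero] at hw
    exact mul_ne_zero hhK0 hyb0 hw
  have hpKb0 : π ^ (K * b) ≠ 0 := pow_ne_zero _ D.pi_ne
  -- `w` has valuations `(0, 0)`
  have hw1 : v₁ w = 0 := by
    have := D.v₁_mul (π ^ (K * b)) w hpKb0 hw0
    rw [← hw, e1, D.v₁_pow D.pi_ne, D.v₁_pi] at this
    omega
  have hw2 : v₂ w = 0 := by
    have := D.symm.v₁_mul (π ^ (K * b)) w hpKb0 hw0
    rw [← hw, e2, D.symm.v₁_pow D.pi_ne, D.symm.v₁_pi] at this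
    omega
  -- `w` divides a power of `π`
  have hwdvd : w ∣ π ^ (n * K) := by
    refine ⟨g ^ K * (x * ε') ^ b, ?_⟩
    have h3 : π ^ (K * b) * (w * (g ^ K * (x * ε') ^ b)) = π ^ (K * b) * π ^ (n * K) := by
      calc π ^ (K * b) * (w * (g ^ K * (x * ε') ^ b))
          = (π ^ (K * b) * w) * (g ^ K * (x * ε') ^ b) := by ring
        _ = (h ^ K * y ^ b) * (g ^ K * (x * ε') ^ b) := by rw [← hw]
        _ = (h * g) ^ K * (x * y * ε') ^ b := by ring
        _ = (π ^ n) ^ K * (π ^ K) ^ b := by rw [hg, hpiK]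
        _ = π ^ (K * b) * π ^ (n * K) := by ring
    exact (mul_left_cancel₀ hpKb0 h3).symm
  have hwu : IsUnit w := D.isUnit_of_dvd_pow hw1 hw2 hwdvd
  -- `h ^ K = x ^ b * (ε' ^ b * w)`
  have hmain : h ^ K = x ^ b * (ε' ^ b * w) := by
    have h4 : y ^ b * h ^ K = y ^ b * (x ^ b * (ε' ^ b * w)) := by
      calc y ^ b * h ^ K = h ^ K * y ^ b := by ring
        _ = π ^ (K * b) * w := hw
        _ = (π ^ K) ^ b * w := by rw [pow_mul]
        _ = (x * y * ε') ^ b * w := by rw [hpiK]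
        _ = y ^ b * (x ^ b * (ε' ^ b * w)) := by ring
    exact mul_left_cancel₀ hyb0 h4
  have hunit : IsUnit (ε' ^ b * w) := (hε'u.pow b).mul hwu
  -- pass to the quotient by `P₁`
  haveI := D.prime₁
  let Q := A ⧸ P₁
  let q : A →+* Q := Ideal.Quotient.mk P₁
  have hqsurj : Function.Surjective q := Ideal.Quotient.mk_surjective
  haveI : IsDomain Q := Ideal.Quotient.isDomain P₁
  have hP1ne : P₁ ≠ ⊤ := D.prime₁.ne_top
  haveI : Nontrivial Q := Ideal.Quotient.nontrivial_iff.mpr hP1ne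
  haveI : IsLocalRing Q := IsLocalRing.of_surjective' q hqsurj
  haveI : IsNoetherianRing Q := isNoetherianRing_of_surjective A Q q hqsurj
  -- the maximal ideal of `Q` is generated by the image of `x`
  have hpiP : π ∈ P₁ := (D.mem_P₁ π D.pi_ne).2 (by rw [D.v₁_pi])
  have hyP : y ∈ P₁ := (D.mem_P₁ y hy0).2 (by rw [D.v₁_y]; exact D.K_pos)
  have hxP : x ∉ P₁ := fun hx => by
    have := (D.mem_P₁ x hx0).1 hx
    rw [D.v₁_x] at this
    omega
  have hhP : h ∉ P₁ := fun hx => by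
    have := (D.mem_P₁ h hh0).1 hx
    rw [h1] at this
    omega
  have hqpi : q π = 0 := Ideal.Quotient.eq_zero_iff_mem.2 hpiP
  have hqy : q y = 0 := Ideal.Quotient.eq_zero_iff_mem.2 hyP
  have hqx : q x ≠ 0 := fun h0 => hxP (Ideal.Quotient.eq_zero_iff_mem.1 h0)
  have hqh : q h ≠ 0 := fun h0 => hhP (Ideal.Quotient.eq_zero_iff_mem.1 h0)
  have hxmax : x ∈ maximalIdeal A := by
    rw [D.max_eq]
    exact Ideal.subset_span (by simp)
  have hmaxQ : maximalIdeal Q = Ideal.span {q x} := by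
    apply le_antisymm
    · intro z hz
      obtain ⟨a, rfl⟩ := hqsurj z
      have ha : a ∈ maximalIdeal A := by
        rw [mem_maximalIdeal, mem_nonunits_iff] at hz ⊢
        intro hau
        exact hz (hau.map q)
      rw [D.max_eq, Ideal.mem_span_insert] at ha
      obtain ⟨c₁, z₁, hz₁, rfl⟩ := ha
      rw [Ideal.mem_span_insert] at hz₁
      obtain ⟨c₂, z₂, hz₂, rfl⟩ := hz₁
      rw [Ideal.mem_span_singleton] at hz₂
      obtain ⟨c₃, rfl⟩ := hz₂
      rw [map_add, map_add, map_mul, map_mul, map_mul, hqpi, hqy, mul_zero, zero_mul, zero_add, add_zero]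
      exact Ideal.mem_span_singleton.2 ⟨q c₂, by ring⟩
    · rw [Ideal.span_singleton_le_iff_mem, mem_maximalIdeal, mem_nonunits_iff]
      intro hu
      obtain ⟨z, hz⟩ := hu.exists_right_inv
      obtain ⟨a, rfl⟩ := hqsurj z
      have : x * a - 1 ∈ P₁ := by
        rw [← Ideal.Quotient.eq_zero_iff_mem]
        show q (x * a - 1) = 0
        rw [map_sub, map_mul, hz, map_one, sub_self]
      have h5 : x * a - 1 ∈ maximalIdeal A :=
        (IsLocalRing.le_maximalIdeal hP1ne) this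
      have h6 : x * a ∈ maximalIdeal A := Ideal.mul_mem_right _ _ hxmax
      have h7 : (1 : A) ∈ maximalIdeal A := by
        have := Ideal.sub_mem _ h6 h5
        rwa [sub_sub_cancel] at this
      exact (Ideal.ne_top_iff_one _).1 (maximalIdeal.isMaximal A).ne_top h7
  have hqxmem : q x ∈ maximalIdeal Q := by
    rw [hmaxQ]
    exact Ideal.mem_span_singleton_self _
  have hnotfield : ¬ IsField Q := by
    intro hF
    obtain ⟨z, hz⟩ := hF.mul_inv_cancel hqx
    rw [mem_maximalIdeal, mem_nonunits_iff] at hqxmem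
    exact hqxmem (IsUnit.of_mul_eq_one z hz)
  have hprinc : (maximalIdeal Q).IsPrincipal := ⟨⟨q x, hmaxQ⟩⟩
  haveI : IsDiscreteValuationRing Q :=
    ((IsDiscreteValuationRing.TFAE Q hnotfield).out 0 4).2 hprinc
  have hirr : Irreducible (q x) :=
    (IsDiscreteValuationRing.irreducible_iff_uniformizer (q x)).2 hmaxQ
  -- compare additive valuations
  have hval : (IsDiscreteValuationRing.addVal Q) (q h ^ K) =
      (IsDiscreteValuationRing.addVal Q) (q x ^ b * q (ε' ^ b * w)) := by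
    rw [← map_pow, ← map_pow, ← map_mul, hmain]
  have hu0 : (IsDiscreteValuationRing.addVal Q) (q (ε' ^ b * w)) = 0 :=
    IsDiscreteValuationRing.addVal_eq_zero_iff.2 (hunit.map q)
  rw [IsDiscreteValuationRing.addVal_pow, IsDiscreteValuationRing.addVal_mul,
    IsDiscreteValuationRing.addVal_pow, IsDiscreteValuationRing.addVal_uniformizer hirr, hu0,
    add_zero] at hval
  have hne_top : (IsDiscreteValuationRing.addVal Q) (q h) ≠ ⊤ := fun ht =>
    hqh (IsDiscreteValuationRing.addVal_eq_top_iff.1 ht)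
  obtain ⟨m, hm⟩ := ENat.ne_top_iff_exists.1 hne_top
  rw [← hm] at hval
  have hval' : ((K * m : ℕ) : ℕ∞) = ((b * 1 : ℕ) : ℕ∞) := by
    push_cast
    simpa [nsmul_eq_mul] using hval
  have := ENat.natCast_inj.1 hval'
  exact ⟨m, by omega⟩

/-- **(NCG).**  If `h` divides a power of `π` then the thickness `K` divides `v₂ h - v₁ h`. -/
theorem dvd_sub (D : NodeData A v₁ v₂ P₁ P₂ π x y K) {h g : A} {n : ℕ} (hg : h * g = π ^ n) :
    (K : ℤ) ∣ (v₂ h : ℤ) - (v₁ h : ℤ) := by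
  have hpn : π ^ n ≠ 0 := pow_ne_zero n D.pi_ne
  have hh0 : h ≠ 0 := by
    rintro rfl
    rw [zero_mul] at hg
    exact hpn hg.symm
  have hg0 : g ≠ 0 := by
    rintro rfl
    rw [mul_zero] at hg
    exact hpn hg.symm
  -- strip `π ^ c`, `c = min (v₁ h) (v₂ h)`
  obtain ⟨c, hc⟩ : ∃ c : ℕ, c = min (v₁ h) (v₂ h) := ⟨_, rfl⟩
  obtain ⟨h₀, hh⟩ := D.pow_dvd_of_le c h hh0 (hc ▸ min_le_left _ _) (hc ▸ min_le_right _ _)
  have hpc : π ^ c ≠ 0 := pow_ne_zero c D.pi_ne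
  have hh₀ : h₀ ≠ 0 := by
    rintro rfl
    rw [mul_zero] at hh
    exact hh0 hh
  have e1 : v₁ h = c + v₁ h₀ := by
    have := D.v₁_mul (π ^ c) h₀ hpc hh₀
    rw [D.v₁_pow D.pi_ne, D.v₁_pi, mul_one, ← hh] at this
    exact this
  have e2 : v₂ h = c + v₂ h₀ := by
    have := D.symm.v₁_mul (π ^ c) h₀ hpc hh₀
    rw [D.symm.v₁_pow D.pi_ne, D.symm.v₁_pi, mul_one, ← hh] at this
    exact this
  -- `c ≤ n`
  have e3 : n = v₁ h + v₁ g := by
    have := D.v₁_mul h g hh0 hg0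
    rw [hg, D.v₁_pow D.pi_ne, D.v₁_pi, mul_one] at this
    exact this
  have hcn : c ≤ n := by omega
  have hg' : h₀ * g = π ^ (n - c) := by
    have h4 : π ^ c * (h₀ * g) = π ^ c * π ^ (n - c) := by
      rw [← pow_add, Nat.add_sub_cancel' hcn, ← hg, hh]
      ring
    exact mul_left_cancel₀ hpc h4
  rcases Nat.le_total (v₁ h) (v₂ h) with hle | hle
  · -- `v₁ h₀ = 0`
    have h1 : v₁ h₀ = 0 := by
      rw [min_eq_left hle] at hc
      omega
    obtain ⟨m, hm⟩ := D.dvd_of_v₁_eq_zero hg' h1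
    refine ⟨m, ?_⟩
    rw [e1, e2, h1, hm]
    push_cast
    ring
  · -- `v₂ h₀ = 0`
    have h2 : v₂ h₀ = 0 := by
      rw [min_eq_right hle] at hc
      omega
    obtain ⟨m, hm⟩ := D.symm.dvd_of_v₁_eq_zero hg' h2
    refine ⟨-m, ?_⟩
    rw [e1, e2, h2, hm]
    push_cast
    ring

end NodeData

end Fermat.Agent.T1.Peu37.NodeClassGroup
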